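import Mathlib.RingTheory.Regular.ProjectiveDimension
import Mathlib.RingTheory.FiniteLength
import Mathlib.RingTheory.SimpleModule.Basic
import Mathlib.RingTheory.Flat.Basic

/-!
# Freeness from a long regular sequence

Over a Noetherian local ring whose maximal ideal is generated by a regular sequence of length `n`,
a finite module admitting a regular sequence of length `n` with finite-length quotient is free.
-/

set_option autoImplicit false

namespace Fermat.Agent.Patching

open CategoryTheory RingTheory.Sequence IsLocalRing

variable {R : Type} [CommRing R] [IsLocalRing R] [IsNoetherianRing R]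

omit [IsNoetherianRing R] in
theorem hasProjectiveDimensionLE_of_isFiniteLength {n : ℕ}
    (hk : HasProjectiveDimensionLE (ModuleCat.of R (R ⧸ maximalIdeal R)) n)
    {Q : Type} [AddCommGroup Q] [Module R Q] (hQ : IsFiniteLength R Q) :
    HasProjectiveDimensionLE (ModuleCat.of R Q) n := by
  induction hQ with
  | @of_subsingleton Q _ _ _ =>
    have : HasProjectiveDimensionLT (ModuleCat.of R Q) 0 :=
      (ModuleCat.isZero_of_subsingleton _).hasProjectiveDimensionLT_zero
    exact hasProjectiveDimensionLT_of_ge _ 0 _ (Nat.zero_le _)
  | @of_simple_quotient Q _ _ N hN _ ih =>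
    obtain ⟨I, hI, ⟨e⟩⟩ := isSimpleModule_iff_quot_maximal.mp hN
    obtain rfl := IsLocalRing.eq_maximalIdeal hI
    have h₃ : HasProjectiveDimensionLT (ModuleCat.of R (Q ⧸ N)) (n + 1) := by
      have := hk
      exact hasProjectiveDimensionLT_of_iso e.symm.toModuleIso _
    have hS := LinearMap.shortExact_shortComplexKer N.mkQ_surjective
    have h₁ : HasProjectiveDimensionLT (ModuleCat.of R (LinearMap.ker N.mkQ)) (n + 1) :=
      have := ih
      hasProjectiveDimensionLT_of_iso (LinearEquiv.ofEq _ _ N.ker_mkQ).symm.toModuleIso _
    exact hS.hasProjectiveDimensionLT_X₂ (n + 1) h₁ h₃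

theorem free_of_isWeaklyRegular (xs : List R) (hxs : IsRegular R xs)
    (hmax : Ideal.ofList xs = maximalIdeal R)
    {N : Type} [AddCommGroup N] [Module R N] [Nontrivial N] [Module.Finite R N]
    (ys : List R) (hys : IsWeaklyRegular N ys) (mem : ∀ y ∈ ys, y ∈ maximalIdeal R)
    (hlen : ys.length = xs.length)
    (hfin : IsFiniteLength R (N ⧸ Ideal.ofList ys • (⊤ : Submodule R N))) :
    Module.Free R N := by
  have hk : HasProjectiveDimensionLE (ModuleCat.of R (R ⧸ maximalIdeal R)) xs.length := by
    rw [← projectiveDimension_le_iff,
      ← projectiveDimension_eq_of_iso ((Shrink.linearEquiv R (R ⧸ Ideal.ofList xs)).trans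
        (Submodule.quotEquivOfEq _ _ hmax)).toModuleIso,
      ModuleCat.projectiveDimension_quotient_eq_length xs hxs]
  have hQ := hasProjectiveDimensionLE_of_isFiniteLength hk hfin
  rw [← projectiveDimension_le_iff] at hQ
  rw [ModuleCat.projectiveDimension_quotient_eq_add_length_of_isWeaklyRegular
    (ModuleCat.of R N) ys hys mem, hlen] at hQ
  have h0 : projectiveDimension (ModuleCat.of R N) ≤ (0 : ℕ) := by
    rw [← ENat.WithBot.add_le_add_natCast_right_iff (c := xs.length)]
    simpa using hQ
  rw [projectiveDimension_le_iff, ← projective_iff_hasProjectiveDimensionLE_zero] at h0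
  have : Module.Projective R N := (IsProjective.iff_projective N).mpr h0
  exact Module.free_of_flat_of_isLocalRing

end Fermat.Agent.Patching
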