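import Mathlib.RingTheory.MvPowerSeries.Inverse
import Mathlib.RingTheory.MvPowerSeries.Equiv
import Mathlib.RingTheory.Regular.RegularSequence
import Mathlib.RingTheory.DiscreteValuationRing.Basic

/-!
# The parameters `(X₁, …, X_r, ϖ)` of `O⟦X₁, …, X_r⟧` form a regular sequence
-/

set_option autoImplicit false

namespace Fermat.Agent.Patching

open MvPowerSeries RingTheory.Sequence

section

variable {σ A : Type} [CommRing A]

theorem mem_span_X_image_iff (T : Finset σ) (f : MvPowerSeries σ A) :
    f ∈ Ideal.span ((X : σ → MvPowerSeries σ A) '' ↑T) ↔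
      ∀ m : σ →₀ ℕ, (∀ j ∈ T, m j = 0) → coeff m f = 0 := by
  classical
  constructor
  · intro hf m hm
    induction hf using Submodule.span_induction generalizing m with
    | mem x hx =>
      obtain ⟨j, hj, rfl⟩ := hx
      rw [coeff_X]
      rw [if_neg]
      intro h
      have := hm j hj
      rw [h] at this
      simp at this
    | zero => simp
    | add x y _ _ hx hy => simp [hx m hm, hy m hm]
    | smul a x _ hx =>
      rw [smul_eq_mul, coeff_mul]
      refine Finset.sum_eq_zero fun p hp => ?_
      rw [Finset.mem_antidiagonal] at hp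
      rw [hx p.2 fun j hj => ?_, mul_zero]
      have := hm j hj
      rw [← hp] at this
      simp only [Finsupp.add_apply] at this
      omega
  · induction T using Finset.induction generalizing f with
    | empty =>
      intro h
      have : f = 0 := by
        ext m
        simpa using h m (by simp)
      simp [this]
    | @insert s T _ ih =>
      intro h
      let g : MvPowerSeries σ A := fun m => if m s = 0 then coeff m f else 0
      have hg : ∀ m, coeff m g = if m s = 0 then coeff m f else 0 := fun m => rfl
      have h1 : (X s : MvPowerSeries σ A) ∣ f - g := by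
        rw [X_dvd_iff]
        intro m hm
        simp [hg, hm]
      have h2 : g ∈ Ideal.span ((X : σ → MvPowerSeries σ A) '' ↑T) := by
        refine ih g fun m hm => ?_
        rw [hg]
        split_ifs with hs
        · refine h m fun j hj => ?_
          rcases Finset.mem_insert.mp hj with rfl | hj
          · exact hs
          · exact hm j hj
        · rfl
      obtain ⟨q, hq⟩ := h1
      have hf : f = X s * q + g := by rw [← hq, sub_add_cancel]
      rw [hf]
      refine add_mem (Ideal.mul_mem_right _ _ (Ideal.subset_span ?_)) ?_
      · exact ⟨s, by simp, rfl⟩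
      · exact Ideal.span_mono (Set.image_mono (by simp)) h2

end

variable (O : Type) [CommRing O] (r : ℕ)

/-- The list `X₁, …, X_r, ϖ`. -/
noncomputable def params (ϖ : O) : List (MvPowerSeries (Fin r) O) :=
  List.ofFn (fun i : Fin r => (X i : MvPowerSeries (Fin r) O)) ++ [C ϖ]

theorem length_params (ϖ : O) : (params O r ϖ).length = r + 1 := by simp [params]

theorem mem_span_range_X_iff (f : MvPowerSeries (Fin r) O) :
    f ∈ Ideal.span (Set.range fun i : Fin r => (X i : MvPowerSeries (Fin r) O)) ↔
      constantCoeff f = 0 := by
  have := mem_span_X_image_iff (Finset.univ : Finset (Fin r)) f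
  rw [Finset.coe_univ, Set.image_univ] at this
  rw [this]
  constructor
  · intro h
    simpa using h 0 (by simp)
  · intro h m hm
    have : m = 0 := by
      ext j
      simpa using hm j (by simp)
    subst this
    simpa using h

theorem ofList_params (ϖ : O) :
    Ideal.ofList (params O r ϖ) =
      Ideal.span (Set.range fun i : Fin r => (X i : MvPowerSeries (Fin r) O)) ⊔
        Ideal.span {C ϖ} := by
  rw [params, Ideal.ofList_append, Ideal.ofList_singleton]
  congr 1
  rw [Ideal.ofList]
  congr 1
  ext x
  simp [List.mem_ofFn]

theorem isWeaklyRegular_params [IsDomain O] (ϖ : O) (hϖ : ϖ ≠ 0) :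
    IsWeaklyRegular (MvPowerSeries (Fin r) O) (params O r ϖ) := by
  classical
  rw [isWeaklyRegular_iff]
  intro i hi
  rw [length_params] at hi
  rw [isSMulRegular_quotient_iff_mem_of_smul_mem]
  simp only [smul_eq_mul, Ideal.mul_top]
  intro f hf
  by_cases hir : i < r
  · let T : Finset (Fin r) := Finset.univ.filter (fun j : Fin r => (j : ℕ) < i)
    have htake : Ideal.ofList ((params O r ϖ).take i) =
        Ideal.span ((X : Fin r → MvPowerSeries (Fin r) O) '' ↑T) := by
      rw [params, List.take_append_of_le_length (by simp; omega), Ideal.ofList]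
      congr 1
      ext x
      simp only [List.mem_take_iff_getElem, List.getElem_ofFn, List.length_ofFn, T,
        Finset.coe_filter, Finset.mem_univ, true_and, Set.mem_image]
      constructor
      · rintro ⟨j, hj, rfl⟩
        exact ⟨⟨j, by omega⟩, by simp; omega, rfl⟩
      · rintro ⟨j, hj, rfl⟩
        exact ⟨j, by simp at hj; omega, rfl⟩
    have hget : (params O r ϖ)[i]'(by simp [length_params]; omega) = X ⟨i, hir⟩ := by
      simp [params, hir]
    rw [htake, mem_span_X_image_iff] at hf ⊢
    intro m hm
    have := hf (Finsupp.single ⟨i, hir⟩ 1 + m) fun j hj => by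
      have hne : j ≠ ⟨i, hir⟩ := by
        intro h
        subst h
        simp [T] at hj
      simp [hm j hj, hne]
    rw [hget, X, coeff_add_monomial_mul, one_mul] at this
    exact this
  · have hi' : i = r := by omega
    subst hi'
    have htake : Ideal.ofList ((params O i ϖ).take i) =
        Ideal.span (Set.range fun j : Fin i => (X j : MvPowerSeries (Fin i) O)) := by
      have : (params O i ϖ).take i = List.ofFn (fun j : Fin i => (X j : MvPowerSeries (Fin i) O)) := by
        simp [params]
      rw [this, Ideal.ofList]
      congr 1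
      ext x
      simp [List.mem_ofFn]
    have hget : (params O i ϖ)[i]'(by simp [length_params]) = C ϖ := by
      simp [params]
    rw [htake, mem_span_range_X_iff] at hf ⊢
    rw [hget, map_mul, constantCoeff_C] at hf
    exact (mul_eq_zero.mp hf).resolve_left hϖ

theorem ofList_params_eq_maximalIdeal [IsDomain O] [IsDiscreteValuationRing O] (ϖ : O)
    (hϖ : Irreducible ϖ) :
    Ideal.ofList (params O r ϖ) = IsLocalRing.maximalIdeal (MvPowerSeries (Fin r) O) := by
  have hm := (IsDiscreteValuationRing.irreducible_iff_uniformizer ϖ).mp hϖ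
  refine le_antisymm ?_ ?_
  · rw [ofList_params, sup_le_iff, Ideal.span_le, Ideal.span_le]
    constructor
    · rintro _ ⟨i, rfl⟩
      show ¬ IsUnit (X i : MvPowerSeries (Fin r) O)
      rw [isUnit_iff_constantCoeff]
      simp
    · rintro _ rfl
      show ¬ IsUnit (C ϖ : MvPowerSeries (Fin r) O)
      rw [isUnit_iff_constantCoeff, constantCoeff_C]
      exact hϖ.not_isUnit
  · intro f hf
    have hf' : constantCoeff f ∈ IsLocalRing.maximalIdeal O := by
      rw [IsLocalRing.mem_maximalIdeal, mem_nonunits_iff] at hf ⊢
      rwa [← isUnit_iff_constantCoeff]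
    rw [hm, Ideal.mem_span_singleton] at hf'
    obtain ⟨a, ha⟩ := hf'
    rw [ofList_params, Submodule.mem_sup]
    refine ⟨f - C (constantCoeff f), ?_, C (constantCoeff f), ?_, sub_add_cancel _ _⟩
    · rw [mem_span_range_X_iff]
      simp
    · rw [Ideal.mem_span_singleton, ha, map_mul]
      exact dvd_mul_right _ _

theorem isRegular_params [IsDomain O] [IsDiscreteValuationRing O] (ϖ : O) (hϖ : Irreducible ϖ) :
    IsRegular (MvPowerSeries (Fin r) O) (params O r ϖ) := by
  refine ⟨isWeaklyRegular_params O r ϖ hϖ.ne_zero, ?_⟩
  rw [smul_eq_mul, Ideal.mul_top, ofList_params_eq_maximalIdeal O r ϖ hϖ]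
  exact (IsLocalRing.maximalIdeal.isMaximal _).ne_top.symm

end Fermat.Agent.Patching
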