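import Fermat.Prelude.Def_Algebra_PatchingDatum
import Fermat.Agent.Patching.PowerSeriesRegular
import Fermat.Agent.Patching.FreeOfRegular
import Mathlib.RingTheory.TensorProduct.Basic

/-!
# A patching level with trivial relation ideal is free over the source power series ring
-/

set_option autoImplicit false

namespace Fermat.Agent.Patching

open RingTheory.Sequence

variable {𝒪 : Type} [CommRing 𝒪] [IsDomain 𝒪] [IsDiscreteValuationRing 𝒪]
    {r : ℕ} {R : Type} [CommRing R] [Algebra 𝒪 R]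
    {M : Type} [AddCommGroup M] [Module R M] [Nontrivial M]
    (L : Algebra.PatchingLevel 𝒪 r R M ⊥)

omit [IsDomain 𝒪] [IsDiscreteValuationRing 𝒪] [Nontrivial M] in
theorem phi_C (a : 𝒪) : L.φ (MvPowerSeries.C a) = MvPowerSeries.C a := by
  have := L.φ.commutes a
  simpa [MvPowerSeries.algebraMap_apply] using this

theorem phi_X_mem_maximalIdeal (i : Fin r) :
    L.φ (MvPowerSeries.X i) ∈ IsLocalRing.maximalIdeal (MvPowerSeries (Fin r) 𝒪) := by
  have : Nontrivial R := Module.nontrivial R M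
  intro h
  have := h.map L.ψ
  rw [L.ψ_φ_X i] at this
  exact not_isUnit_zero this

omit [IsDomain 𝒪] [IsDiscreteValuationRing 𝒪] in
theorem nontrivial_N : Nontrivial L.N :=
  L.π_surjective.nontrivial

omit [IsDomain 𝒪] [IsDiscreteValuationRing 𝒪] [Nontrivial M] in
theorem finite_N : Module.Finite (MvPowerSeries (Fin r) 𝒪) L.N := by
  classical
  refine ⟨⟨Finset.univ.image (fun i => L.b i), ?_⟩⟩
  rw [_root_.eq_top_iff]
  intro x _
  obtain ⟨c, rfl⟩ := L.b_span x
  exact Submodule.sum_mem _ fun i _ => Submodule.smul_mem _ _ (Submodule.subset_span (by simp))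

/-- `N` is free over the source of `φ`, with basis `b`. -/
noncomputable def coordEquiv : (Fin L.d → MvPowerSeries (Fin r) 𝒪) ≃+ L.N :=
  AddEquiv.ofBijective
    ({ toFun := fun c => ∑ i, L.φ (c i) • L.b i
       map_zero' := by simp
       map_add' := fun c c' => by simp [add_smul, Finset.sum_add_distrib] } :
      (Fin L.d → MvPowerSeries (Fin r) 𝒪) →+ L.N)
    ⟨by
      refine (injective_iff_map_eq_zero _).mpr fun c hc => ?_
      funext i
      have := (L.b_rel c).mp hc i
      simpa using this,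
     fun x => by
      obtain ⟨c, hc⟩ := L.b_span x
      exact ⟨c, hc.symm⟩⟩

omit [IsDiscreteValuationRing 𝒪] [Nontrivial M] in
theorem isWeaklyRegular_map_params (ϖ : 𝒪) (hϖ : Irreducible ϖ) :
    IsWeaklyRegular L.N ((params 𝒪 r ϖ).map L.φ) := by
  classical
  have h0 := isWeaklyRegular_params 𝒪 r ϖ hϖ.ne_zero
  have h1 : IsWeaklyRegular (Fin L.d → MvPowerSeries (Fin r) 𝒪) (params 𝒪 r ϖ) :=
    ((TensorProduct.rid (MvPowerSeries (Fin r) 𝒪)
      (Fin L.d → MvPowerSeries (Fin r) 𝒪)).isWeaklyRegular_congr _).mp h0.isWeaklyRegular_lTensor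
  refine (AddEquiv.isWeaklyRegular_congr (e := coordEquiv L) ?_).mp h1
  rw [List.forall₂_map_right_iff, List.forall₂_same]
  intro p _ c
  simp [coordEquiv, Finset.smul_sum, map_mul, mul_smul]

omit [Nontrivial M] in
theorem isFiniteLength_quot (ϖ : 𝒪) (hϖ : Irreducible ϖ) :
    IsFiniteLength (MvPowerSeries (Fin r) 𝒪)
      (L.N ⧸ Ideal.ofList ((params 𝒪 r ϖ).map L.φ) •
        (⊤ : Submodule (MvPowerSeries (Fin r) 𝒪) L.N)) := by
  classical
  let P := MvPowerSeries (Fin r) 𝒪
  let I : Ideal P := Ideal.ofList ((params 𝒪 r ϖ).map L.φ)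
  let Q := L.N ⧸ I • (⊤ : Submodule P L.N)
  have := finite_N L
  change IsFiniteLength P Q
  rw [isFiniteLength_iff_isNoetherian_isArtinian]
  refine ⟨inferInstance, ?_⟩
  let : Module 𝒪 Q := Module.compHom Q (algebraMap 𝒪 P)
  have : IsScalarTower 𝒪 P Q := IsScalarTower.of_compHom 𝒪 P Q
  have hI : ∀ f ∈ IsLocalRing.maximalIdeal P, ∀ q : Q, L.φ f • q = 0 := by
    intro f hf q
    rw [← ofList_params_eq_maximalIdeal 𝒪 r ϖ hϖ] at hf
    obtain ⟨x, rfl⟩ := Submodule.Quotient.mk_surjective _ q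
    rw [← Submodule.Quotient.mk_smul, Submodule.Quotient.mk_eq_zero]
    refine Submodule.smul_mem_smul ?_ trivial
    show L.φ f ∈ I
    rw [show I = (Ideal.ofList (params 𝒪 r ϖ)).map (L.φ : P →+* P) by
      rw [Ideal.map_ofList]; rfl]
    exact Ideal.mem_map_of_mem _ hf
  let qb : Fin L.d → Q := fun i => Submodule.Quotient.mk (L.b i)
  let g : (Fin L.d → 𝒪) →ₗ[𝒪] Q := Fintype.linearCombination 𝒪 qb
  have hC : ∀ (a : 𝒪) (q : Q), a • q = L.φ (MvPowerSeries.C a) • q := by
    intro a q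
    rw [phi_C L a, ← algebraMap_smul P a q, MvPowerSeries.algebraMap_apply]
    simp
  have hg : Function.Surjective g := by
    intro q
    obtain ⟨x, rfl⟩ := Submodule.Quotient.mk_surjective _ q
    obtain ⟨c, hc⟩ := L.b_span x
    refine ⟨fun i => MvPowerSeries.constantCoeff (c i), ?_⟩
    rw [hc, ← Submodule.mkQ_apply, map_sum]
    simp only [g, Fintype.linearCombination_apply, map_smul, Submodule.mkQ_apply, qb]
    refine Finset.sum_congr rfl fun i _ => ?_
    rw [hC, eq_comm, ← sub_eq_zero, ← sub_smul, ← map_sub]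
    refine hI _ ?_ _
    rw [IsLocalRing.mem_maximalIdeal, mem_nonunits_iff, MvPowerSeries.isUnit_iff_constantCoeff]
    simp
  have hkill : ∀ a ∈ IsLocalRing.maximalIdeal 𝒪, ∀ q : Q, a • q = 0 := by
    intro a ha q
    rw [hC]
    refine hI _ ?_ q
    rw [IsLocalRing.mem_maximalIdeal, mem_nonunits_iff, MvPowerSeries.isUnit_iff_constantCoeff]
    simpa using ha
  let k := 𝒪 ⧸ IsLocalRing.maximalIdeal 𝒪
  let g' : (Fin L.d → k) →ₗ[𝒪] Q :=
    ∑ i, (Submodule.liftQ (IsLocalRing.maximalIdeal 𝒪) (LinearMap.toSpanSingleton 𝒪 Q (qb i))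
      (fun a ha => by simpa using hkill a ha (qb i))).comp (LinearMap.proj i)
  have hg' : Function.Surjective g' := by
    intro q
    obtain ⟨c, rfl⟩ := hg q
    refine ⟨fun i => Submodule.Quotient.mk (c i), ?_⟩
    simp only [g', g, Fintype.linearCombination_apply, LinearMap.sum_apply, LinearMap.comp_apply,
      LinearMap.proj_apply, Submodule.liftQ_apply, LinearMap.toSpanSingleton_apply]
  have : IsArtinian 𝒪 k := by
    have : IsSimpleModule 𝒪 k :=
      isSimpleModule_iff_quot_maximal.mpr ⟨_, inferInstance, ⟨LinearEquiv.refl _ _⟩⟩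
    infer_instance
  have : IsArtinian 𝒪 Q := isArtinian_of_surjective _ g' hg'
  exact isArtinian_of_tower 𝒪 inferInstance

theorem free_N : Module.Free (MvPowerSeries (Fin r) 𝒪) L.N := by
  obtain ⟨ϖ, hϖ⟩ := IsDiscreteValuationRing.exists_irreducible 𝒪
  have := nontrivial_N L
  have := finite_N L
  refine free_of_isWeaklyRegular (params 𝒪 r ϖ) (isRegular_params 𝒪 r ϖ hϖ)
    (ofList_params_eq_maximalIdeal 𝒪 r ϖ hϖ) ((params 𝒪 r ϖ).map L.φ)
    (isWeaklyRegular_map_params L ϖ hϖ) ?_ (by simp) (isFiniteLength_quot L ϖ hϖ)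
  intro y hy
  simp only [params, List.map_append, List.mem_append, List.map_ofFn, List.mem_ofFn,
    List.map_cons, List.map_nil, List.mem_singleton, Function.comp_apply] at hy
  rcases hy with ⟨i, rfl⟩ | rfl
  · exact phi_X_mem_maximalIdeal L i
  · rw [phi_C, IsLocalRing.mem_maximalIdeal, mem_nonunits_iff,
      MvPowerSeries.isUnit_iff_constantCoeff, MvPowerSeries.constantCoeff_C]
    exact hϖ.not_isUnit

end Fermat.Agent.Patching
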